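import Mathlib
import Fermat.Agent.FLTSmall.CaseII

/-!
# A criterion for Kummer's lemma

If `ψ` is a homomorphism from the units of `𝓞 K` to an `𝔽_p`-vector space killing the units
congruent to a rational integer mod `p`, and there are `rank K + 1` units whose images are
linearly independent, then Kummer's lemma holds.
-/

set_option autoImplicit false

namespace Fermat.Agent.FLTSmall.KL

open NumberField NumberField.Units

variable {K : Type*} [Field K] [NumberField K]

/-- The unit group is generated by `rank K + 1` elements. -/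
lemma exists_generators :
    ∃ g : Option (Fin (rank K)) → (𝓞 K)ˣ, ∀ u : (𝓞 K)ˣ,
      ∃ e : Option (Fin (rank K)) → ℤ, u = ∏ i, g i ^ e i := by
  obtain ⟨t, ht⟩ := IsCyclic.exists_generator (α := torsion K)
  refine ⟨fun i => i.elim (t : (𝓞 K)ˣ) (fundSystem K), fun u => ?_⟩
  obtain ⟨⟨τ, e⟩, hu, -⟩ := exist_unique_eq_mul_prod K u
  obtain ⟨k, hk⟩ := Subgroup.mem_zpowers_iff.1 (ht τ)
  refine ⟨fun i => i.elim k e, ?_⟩
  rw [Fintype.prod_option]
  simp only [Option.elim]
  rw [hu, ← hk]
  simp

variable {p : ℕ} [hp : Fact p.Prime]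

theorem kummerLemma_of_hom {A : Type*} [AddCommGroup A] [Module (ZMod p) A]
    (ψ : Additive (𝓞 K)ˣ →+ A)
    (hψ : ∀ u : (𝓞 K)ˣ, (∃ n : ℤ, (p : 𝓞 K) ∣ (u : 𝓞 K) - n) → ψ (Additive.ofMul u) = 0)
    {ι : Type*} [Fintype ι] (hι : rank K + 1 ≤ Fintype.card ι) (w : ι → (𝓞 K)ˣ)
    (hw : LinearIndependent (ZMod p) (fun i => ψ (Additive.ofMul (w i)))) :
    KummerLemma p K := by
  classical
  obtain ⟨g, hg⟩ := exists_generators (K := K)
  set G : Option (Fin (rank K)) → A := fun i => ψ (Additive.ofMul (g i)) with hG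
  have hψprod : ∀ e : Option (Fin (rank K)) → ℤ,
      ψ (Additive.ofMul (∏ i, g i ^ e i)) = ∑ i, (e i : ZMod p) • G i := by
    intro e
    rw [ofMul_prod, map_sum]
    refine Finset.sum_congr rfl fun i _ => ?_
    rw [ofMul_zpow, map_zsmul, hG, Int.cast_smul_eq_zsmul]
  -- the images of the `w i` lie in the span of the `G i`
  have hspan : Submodule.span (ZMod p) (Set.range fun i => ψ (Additive.ofMul (w i))) ≤
      Submodule.span (ZMod p) (Set.range G) := by
    rw [Submodule.span_le]
    rintro _ ⟨i, rfl⟩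
    obtain ⟨e, he⟩ := hg (w i)
    simp only [SetLike.mem_coe]
    rw [he, hψprod]
    exact Submodule.sum_mem _ fun j _ => Submodule.smul_mem _ _ (Submodule.subset_span ⟨j, rfl⟩)
  have hGind : LinearIndependent (ZMod p) G := by
    rw [linearIndependent_iff_card_le_finrank_span]
    have h1 := finrank_span_eq_card hw
    have : Module.Finite (ZMod p) (Submodule.span (ZMod p) (Set.range G)) :=
      FiniteDimensional.span_of_finite _ (Set.finite_range G)
    have h2 := Submodule.finrank_mono hspan
    simp only [Fintype.card_option, Fintype.card_fin, Set.finrank]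
    omega
  intro u hu
  obtain ⟨e, he⟩ := hg u
  have h0 := hψ u hu
  rw [he, hψprod] at h0
  have h1 := Fintype.linearIndependent_iff.1 hGind _ h0
  have h2 : ∀ i, (p : ℤ) ∣ e i := fun i => (ZMod.intCast_zmod_eq_zero_iff_dvd _ _).1 (h1 i)
  choose f hf using h2
  refine ⟨∏ i, g i ^ f i, ?_⟩
  rw [he, ← Finset.prod_pow]
  refine Finset.prod_congr rfl fun i _ => ?_
  rw [hf i, mul_comm, zpow_mul, zpow_natCast]

end Fermat.Agent.FLTSmall.KL
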