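import Mathlib
import Fermat.Agent.FLTSmall.KL.Criterion

/-!
# The logarithmic derivative homomorphism
-/

set_option autoImplicit false

namespace Fermat.Agent.FLTSmall.KL

open NumberField NumberField.Units Polynomial

section dlog

variable {O : Type*} [CommRing O] {B : Type*} [CommRing B]

lemma snd_mul' (x y : DualNumber B) : (x * y).snd = x.fst * y.snd + y.fst * x.snd := by
  rw [TrivSqZeroExt.snd_mul]
  simp [mul_comm]

/-- The logarithmic derivative attached to a ring hom to the dual numbers. -/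
noncomputable def dlog (Θ : O →+* DualNumber B) : Additive Oˣ →+ B where
  toFun u := (Θ ((u.toMul⁻¹ : Oˣ) : O)).fst * (Θ (u.toMul : O)).snd
  map_zero' := by simp
  map_add' u v := by
    have hu : (Θ ((u.toMul⁻¹ : Oˣ) : O)).fst * (Θ (u.toMul : O)).fst = 1 := by
      rw [← TrivSqZeroExt.fst_mul, ← map_mul]; simp
    have hv : (Θ ((v.toMul⁻¹ : Oˣ) : O)).fst * (Θ (v.toMul : O)).fst = 1 := by
      rw [← TrivSqZeroExt.fst_mul, ← map_mul]; simp
    simp only [toMul_add, mul_inv, Units.val_mul, map_mul, TrivSqZeroExt.fst_mul, snd_mul']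
    linear_combination ((Θ ((v.toMul⁻¹ : Oˣ) : O)).fst * (Θ (v.toMul : O)).snd) * hu +
      ((Θ ((u.toMul⁻¹ : Oˣ) : O)).fst * (Θ (u.toMul : O)).snd) * hv

lemma dlog_apply (Θ : O →+* DualNumber B) (u : Oˣ) :
    dlog Θ (Additive.ofMul u) = (Θ ((u⁻¹ : Oˣ) : O)).fst * (Θ (u : O)).snd := rfl

/-- characterisation of `dlog`. -/
lemma dlog_eq_of_mul_eq (Θ : O →+* DualNumber B) (u : Oˣ) {b : B}
    (h : (Θ (u : O)).fst * b = (Θ (u : O)).snd) : dlog Θ (Additive.ofMul u) = b := by
  have hu : (Θ ((u⁻¹ : Oˣ) : O)).fst * (Θ (u : O)).fst = 1 := by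
    rw [← TrivSqZeroExt.fst_mul, ← map_mul]; simp
  rw [dlog_apply, ← h]
  linear_combination b * hu

lemma dlog_eq_zero_of_dvd (p : ℕ) [CharP B p] (Θ : O →+* DualNumber B) (u : Oˣ)
    (h : ∃ n : ℤ, (p : O) ∣ (u : O) - n) : dlog Θ (Additive.ofMul u) = 0 := by
  obtain ⟨n, c, hc⟩ := h
  have hu : (u : O) = n + p * c := by linear_combination hc
  have hp : (Θ (p : O)) = 0 := by
    rw [map_natCast]
    ext
    · simp
    · simp
  rw [dlog_apply, hu, map_add, map_mul, hp, zero_mul, add_zero, map_intCast]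
  simp

end dlog

section theta

variable {B : Type*} [CommRing B]

open TrivSqZeroExt DualNumber

lemma charP_dualNumber (p : ℕ) [CharP B p] : CharP (DualNumber B) p :=
  charP_of_injective_ringHom (f := TrivSqZeroExt.inlHom B B) TrivSqZeroExt.inl_injective p

lemma eps_sq : (ε : DualNumber B) ^ 2 = 0 := by rw [pow_two, eps_mul_eps]

lemma aeval_inl (b : B) (f : ℤ[X]) :
    aeval (inl b : DualNumber B) f = inl (aeval b f) := by
  have := aeval_algHom_apply (TrivSqZeroExt.inlAlgHom ℤ B B) b f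
  simpa using this

lemma aeval_inl_add_eps (b : B) (f : ℤ[X]) :
    aeval (inl b + ε : DualNumber B) f = inl (aeval b f) + inl (aeval b (derivative f)) * ε := by
  rw [aeval_add_of_sq_eq_zero _ _ _ eps_sq, aeval_inl, aeval_inl]

lemma fst_aeval_inl_add_eps (b : B) (f : ℤ[X]) :
    (aeval (inl b + ε : DualNumber B) f).fst = aeval b f := by
  rw [aeval_inl_add_eps]; simp

lemma snd_aeval_inl_add_eps (b : B) (f : ℤ[X]) :
    (aeval (inl b + ε : DualNumber B) f).snd = aeval b (derivative f) := by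
  rw [aeval_inl_add_eps]; simp

variable {p : ℕ} [hp : Fact p.Prime] [CharP B p]

lemma aeval_cyclotomic_eq_zero {t : B} (ht : t ^ (p - 2) = 0) :
    aeval (inl (1 + t) + ε : DualNumber B) (cyclotomic p ℤ) = 0 := by
  have := charP_dualNumber (B := B) p
  have h1 : cyclotomic p (DualNumber B) = (X - 1) ^ (p - 1) := by
    have := cyclotomic_mul_prime_eq_pow_of_not_dvd (DualNumber B) (p := p) (n := 1)
      (by simpa using hp.out.one_lt.ne')
    rwa [one_mul, cyclotomic_one] at this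
  rw [aeval_def, eval₂_eq_eval_map, map_cyclotomic, h1]
  simp only [eval_pow, eval_sub, eval_X, eval_one]
  have h2 : (inl (1 + t) + ε : DualNumber B) - 1 = inl t + ε := by
    rw [inl_add, inl_one]; ring
  rw [h2]
  have h3 := aeval_inl_add_eps t ((X : ℤ[X]) ^ (p - 1))
  simp only [map_pow, aeval_X, derivative_X_pow, map_mul, aeval_C] at h3
  rw [h3]
  have hp2 := hp.out.two_le
  have e1 : t ^ (p - 1) = 0 := by
    rw [show p - 1 = (p - 2) + 1 by omega, pow_succ, ht, zero_mul]
  have e2 : t ^ (p - 1 - 1) = 0 := by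
    rw [show p - 1 - 1 = p - 2 by omega, ht]
  rw [e1, e2]
  simp

variable {K : Type*} [Field K] [NumberField K] [IsCyclotomicExtension {p} ℚ K] {ζ : K}

omit [IsCyclotomicExtension {p} ℚ K] in
lemma minpoly_toInteger (hζ : IsPrimitiveRoot ζ p) :
    minpoly ℤ hζ.toInteger = cyclotomic p ℤ := by
  rw [cyclotomic_eq_minpoly hζ hp.out.pos,
    ← minpoly.algebraMap_eq (A := ℤ) (B := 𝓞 K) (B' := K) RingOfIntegers.coe_injective]
  rfl

/-- The ring hom `𝓞 K → B[ε]` sending `ζ` to `1 + t + ε`. -/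
noncomputable def theta (hζ : IsPrimitiveRoot ζ p) {t : B} (ht : t ^ (p - 2) = 0) :
    𝓞 K →ₐ[ℤ] DualNumber B :=
  hζ.integralPowerBasis.lift (inl (1 + t) + ε) (by
    rw [hζ.integralPowerBasis_gen, minpoly_toInteger hζ]
    exact aeval_cyclotomic_eq_zero ht)

lemma theta_aeval (hζ : IsPrimitiveRoot ζ p) {t : B} (ht : t ^ (p - 2) = 0) (f : ℤ[X]) :
    theta hζ ht (aeval hζ.toInteger f) = aeval (inl (1 + t) + ε : DualNumber B) f := by
  have := hζ.integralPowerBasis.lift_aeval (inl (1 + t) + ε : DualNumber B) (by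
    rw [hζ.integralPowerBasis_gen, minpoly_toInteger hζ]
    exact aeval_cyclotomic_eq_zero ht) f
  rw [← this, theta]
  congr 2
  rw [hζ.integralPowerBasis_gen]

/-- Computation of `dlog` of a unit given as a polynomial in `ζ`. -/
lemma dlog_theta_eq (hζ : IsPrimitiveRoot ζ p) {t : B} (ht : t ^ (p - 2) = 0) (u : (𝓞 K)ˣ)
    (f : ℤ[X]) (hu : (u : 𝓞 K) = aeval hζ.toInteger f) {b : B}
    (h : aeval (1 + t) f * b = aeval (1 + t) (derivative f)) :
    dlog (theta hζ ht : 𝓞 K →+* DualNumber B) (Additive.ofMul u) = b := by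
  apply dlog_eq_of_mul_eq
  simp only [RingHom.coe_coe]
  rw [hu, theta_aeval, fst_aeval_inl_add_eps, snd_aeval_inl_add_eps, h]

end theta

end Fermat.Agent.FLTSmall.KL
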