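import Mathlib
import Fermat.Agent.FLTSmall.KL.DLog

/-!
# Kummer's lemma from an explicit certificate
-/

set_option autoImplicit false

namespace Fermat.Agent.FLTSmall.KL

open NumberField NumberField.Units Polynomial

variable {p : ℕ} [hp : Fact p.Prime]

/-- The truncated polynomial ring `𝔽_p[X] / X ^ m`. -/
abbrev TB (p m : ℕ) : Type := (ZMod p)[X] ⧸ Ideal.span {(X : (ZMod p)[X]) ^ m}

lemma nontrivial_TB {m : ℕ} (hm : m ≠ 0) : Nontrivial (TB p m) := by
  apply Ideal.Quotient.nontrivial_iff.2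
  rw [Ne, Ideal.span_singleton_eq_top]
  intro h
  exact not_isUnit_X ((isUnit_pow_iff hm).1 h)

lemma charP_TB {m : ℕ} (hm : m ≠ 0) : CharP (TB p m) p := by
  have := nontrivial_TB (p := p) hm
  exact charP_of_injective_algebraMap (algebraMap (ZMod p) (TB p m)).injective p

lemma mk_X_pow (m : ℕ) :
    (Ideal.Quotient.mk (Ideal.span {(X : (ZMod p)[X]) ^ m}) X) ^ m = 0 := by
  rw [← map_pow, Ideal.Quotient.eq_zero_iff_mem]
  exact Ideal.mem_span_singleton_self _

lemma aeval_mk (m : ℕ) (F : (ZMod p)[X]) (f : ℤ[X]) :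
    aeval (Ideal.Quotient.mk (Ideal.span {(X : (ZMod p)[X]) ^ m}) F) f =
      Ideal.Quotient.mk (Ideal.span {(X : (ZMod p)[X]) ^ m}) (aeval F f) :=
  aeval_algHom_apply (Ideal.Quotient.mkₐ ℤ (Ideal.span {(X : (ZMod p)[X]) ^ m})) F f

variable {K : Type*} [Field K] [NumberField K] [IsCyclotomicExtension {p} ℚ K] {ζ : K}

omit hp in
lemma rank_add_one [NeZero p] (hp3 : 3 ≤ p) : rank K + 1 = p.totient / 2 := by
  have h1 := IsCyclotomicExtension.Rat.nrRealPlaces_eq_zero (n := p) K (by omega)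
  have h2 := IsCyclotomicExtension.Rat.nrComplexPlaces_eq_totient_div_two p K
  have h3 := InfinitePlace.card_eq_nrRealPlaces_add_nrComplexPlaces K
  have h4 : 0 < Fintype.card (InfinitePlace K) := Fintype.card_pos
  rw [rank]
  omega

theorem kummerLemma_of_certificate (hp3 : 3 ≤ p) (hζ : IsPrimitiveRoot ζ p)
    {ι : Type*} [Fintype ι] (hι : (p - 1) / 2 ≤ Fintype.card ι)
    (w : ι → (𝓞 K)ˣ) (f : ι → ℤ[X]) (hw : ∀ i, (w i : 𝓞 K) = aeval hζ.toInteger (f i))
    (P : ι → (ZMod p)[X])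
    (hP : ∀ i, (X : (ZMod p)[X]) ^ (p - 2) ∣
      aeval (1 + X : (ZMod p)[X]) (f i) * P i - aeval (1 + X : (ZMod p)[X]) (derivative (f i)))
    (hind : ∀ g : ι → ZMod p, (X : (ZMod p)[X]) ^ (p - 2) ∣ ∑ i, C (g i) * P i → ∀ i, g i = 0) :
    KummerLemma p K := by
  have hm : p - 2 ≠ 0 := by omega
  have := charP_TB (p := p) hm
  let I := Ideal.span {(X : (ZMod p)[X]) ^ (p - 2)}
  have ht := mk_X_pow (p := p) (p - 2)
  have hdlog : ∀ i, dlog (theta hζ ht : 𝓞 K →+* DualNumber (TB p (p - 2))) (Additive.ofMul (w i)) =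
      Ideal.Quotient.mk I (P i) := by
    intro i
    apply dlog_theta_eq hζ ht (w i) (f i) (hw i)
    have h1 : (1 : TB p (p - 2)) + Ideal.Quotient.mk I X = Ideal.Quotient.mk I (1 + X) := by
      simp
    rw [h1]
    change aeval (Ideal.Quotient.mk (Ideal.span {(X : (ZMod p)[X]) ^ (p - 2)}) (1 + X)) (f i) *
      Ideal.Quotient.mk (Ideal.span {(X : (ZMod p)[X]) ^ (p - 2)}) (P i) =
      aeval (Ideal.Quotient.mk (Ideal.span {(X : (ZMod p)[X]) ^ (p - 2)}) (1 + X))
        (derivative (f i))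
    rw [aeval_mk, aeval_mk, ← map_mul, ← sub_eq_zero, ← map_sub,
      Ideal.Quotient.eq_zero_iff_mem, Ideal.mem_span_singleton]
    exact hP i
  refine kummerLemma_of_hom (dlog (theta hζ ht : 𝓞 K →+* DualNumber (TB p (p - 2))))
    (fun u hu => dlog_eq_zero_of_dvd p _ u hu) (ι := ι) ?_ w ?_
  · rw [rank_add_one (p := p) (K := K) hp3, Nat.totient_prime hp.out]
    exact hι
  · simp only [hdlog]
    rw [Fintype.linearIndependent_iff]
    intro g hg
    apply hind g
    rw [← Ideal.mem_span_singleton, ← Ideal.Quotient.eq_zero_iff_mem, map_sum, ← hg]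
    refine Finset.sum_congr rfl fun i _ => ?_
    rw [← smul_eq_C_mul]
    exact map_smul (Ideal.Quotient.mkₐ (ZMod p) I) (g i) (P i)

/-- Version of the certificate criterion for the units `ζ` and `1 + ζ + ⋯ + ζ ^ (a - 1)`,
`2 ≤ a ≤ (p - 1) / 2`. -/
theorem kummerLemma_of_certificate' (K : Type*) [Field K] [NumberField K]
    [IsCyclotomicExtension {p} ℚ K] (hp3 : 3 ≤ p) (P : ℕ → (ZMod p)[X])
    (hP0 : (X : (ZMod p)[X]) ^ (p - 2) ∣ (1 + X) * P 0 - 1)
    (hP : ∀ a : ℕ, 2 ≤ a → a ≤ (p - 1) / 2 → (X : (ZMod p)[X]) ^ (p - 2) ∣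
      (∑ k ∈ Finset.range a, (1 + X : (ZMod p)[X]) ^ k) * P (a - 1) -
        ∑ k ∈ Finset.range a, (k : (ZMod p)[X]) * (1 + X) ^ (k - 1))
    (hind : ∀ g : Fin ((p - 1) / 2) → ZMod p,
      (X : (ZMod p)[X]) ^ (p - 2) ∣ ∑ i, C (g i) * P i → ∀ i, g i = 0) :
    KummerLemma p K := by
  have hζ := IsCyclotomicExtension.zeta_spec p ℚ K
  have hζ' := hζ.toInteger_isPrimitiveRoot
  have hunit : ∀ i : Fin ((p - 1) / 2), IsUnit (if (i : ℕ) = 0 then hζ.toInteger else
      ∑ k ∈ Finset.range (i + 1), hζ.toInteger ^ k) := by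
    intro i
    split_ifs with h
    · exact hζ'.isUnit hp.out.ne_zero
    · refine hζ'.geom_sum_isUnit hp.out.two_le ?_
      refine (Nat.coprime_of_lt_prime (by omega) ?_ hp.out).symm
      have := i.2
      omega
  refine kummerLemma_of_certificate hp3 hζ (ι := Fin ((p - 1) / 2)) (by simp)
    (fun i => (hunit i).unit)
    (fun i => if (i : ℕ) = 0 then X else ∑ k ∈ Finset.range (i + 1), X ^ k) ?_
    (fun i => P i) ?_ hind
  · intro i
    rw [IsUnit.unit_spec]
    split_ifs with h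
    · simp
    · simp
  · intro i
    split_ifs with h
    · simpa [h] using hP0
    · have := hP (i + 1) (by omega) (by have := i.2; omega)
      simpa [derivative_sum, derivative_X_pow, map_sum] using this

end Fermat.Agent.FLTSmall.KL
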