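import Mathlib
import Fermat.Agent.FLTSmall.KL.Certificate

/-! # Kummer's lemma for `p = 11` (generated certificate) -/

set_option autoImplicit false

namespace Fermat.Agent.FLTSmall.KL

open Polynomial

/-- logarithmic derivatives of the cyclotomic units modulo `X ^ 9`. -/
noncomputable def P11 : ℕ → (ZMod 11)[X]
  | 0 => C 1 * X ^ 0 + C 10 * X ^ 1 + C 1 * X ^ 2 + C 10 * X ^ 3 + C 1 * X ^ 4 + C 10 * X ^ 5 + C 1 * X ^ 6 + C 10 * X ^ 7 + C 1 * X ^ 8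
  | 1 => C 6 * X ^ 0 + C 8 * X ^ 1 + C 7 * X ^ 2 + C 2 * X ^ 3 + C 10 * X ^ 4 + C 6 * X ^ 5 + C 8 * X ^ 6 + C 7 * X ^ 7 + C 2 * X ^ 8
  | 2 => C 1 * X ^ 0 + C 7 * X ^ 1 + C 0 * X ^ 2 + C 5 * X ^ 3 + C 6 * X ^ 4 + C 7 * X ^ 5 + C 2 * X ^ 6 + C 3 * X ^ 7 + C 0 * X ^ 8
  | 3 => C 7 * X ^ 0 + C 8 * X ^ 1 + C 1 * X ^ 2 + C 8 * X ^ 3 + C 7 * X ^ 4 + C 6 * X ^ 5 + C 4 * X ^ 6 + C 0 * X ^ 7 + C 0 * X ^ 8
  | 4 => C 2 * X ^ 0 + C 0 * X ^ 1 + C 10 * X ^ 2 + C 3 * X ^ 3 + C 0 * X ^ 4 + C 6 * X ^ 5 + C 5 * X ^ 6 + C 6 * X ^ 7 + C 5 * X ^ 8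
  | _ => 0

lemma char11 : (11 : (ZMod 11)[X]) = 0 := by
  have := CharP.cast_eq_zero (ZMod 11)[X] 11
  exact_mod_cast this

lemma char11' : (11 : ZMod 11) = 0 := by decide

theorem kummerLemma_eleven (K : Type*) [Field K] [NumberField K]
    [IsCyclotomicExtension {11} ℚ K] : KummerLemma 11 K := by
  have : Fact (Nat.Prime 11) := ⟨by norm_num⟩
  refine kummerLemma_of_certificate' K (by norm_num) P11 ?_ ?_ ?_
  · refine ⟨1, ?_⟩
    simp only [P11, map_ofNat, map_one, map_zero]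
    linear_combination (1 * X + 1 * X ^ 2 + 1 * X ^ 3 + 1 * X ^ 4 + 1 * X ^ 5 + 1 * X ^ 6 + 1 * X ^ 7 + 1 * X ^ 8) * char11
  · intro a h2 ha
    norm_num at ha
    interval_cases a
    · refine ⟨2, ?_⟩
      simp only [P11, map_ofNat, map_one, map_zero, Finset.sum_range_succ, Finset.sum_range_zero,
        Nat.cast_ofNat, Nat.cast_one, Nat.cast_zero]
      norm_num
      linear_combination (1 + 2 * X + 2 * X ^ 2 + 1 * X ^ 3 + 2 * X ^ 4 + 2 * X ^ 5 + 2 * X ^ 6 + 2 * X ^ 7 + 1 * X ^ 8) * char11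
    · refine ⟨3, ?_⟩
      simp only [P11, map_ofNat, map_one, map_zero, Finset.sum_range_succ, Finset.sum_range_zero,
        Nat.cast_ofNat, Nat.cast_one, Nat.cast_zero]
      norm_num
      linear_combination (2 * X + 2 * X ^ 2 + 2 * X ^ 3 + 3 * X ^ 4 + 4 * X ^ 5 + 3 * X ^ 6 + 2 * X ^ 7 + 1 * X ^ 8) * char11
    · refine ⟨4, ?_⟩
      simp only [P11, map_ofNat, map_one, map_zero, Finset.sum_range_succ, Finset.sum_range_zero,
        Nat.cast_ofNat, Nat.cast_one, Nat.cast_zero]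
      norm_num
      linear_combination (2 + 6 * X + 7 * X ^ 2 + 7 * X ^ 3 + 8 * X ^ 4 + 9 * X ^ 5 + 8 * X ^ 6 + 5 * X ^ 7 + 2 * X ^ 8) * char11
    · refine ⟨9 + 8 * X + 9 * X ^ 2 + 5 * X ^ 3, ?_⟩
      simp only [P11, map_ofNat, map_one, map_zero, Finset.sum_range_succ, Finset.sum_range_zero,
        Nat.cast_ofNat, Nat.cast_one, Nat.cast_zero]
      norm_num
      linear_combination (5 * X ^ 2 + 11 * X ^ 3 + 12 * X ^ 4 + 10 * X ^ 5 + 10 * X ^ 6 + 13 * X ^ 7 + 15 * X ^ 8 + 12 * X ^ 9 + 7 * X ^ 10 + 2 * X ^ 11) * char11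
  · intro (g : Fin 5 → ZMod 11) (h : (X : (ZMod 11)[X]) ^ 9 ∣ ∑ i : Fin 5, C (g i) * P11 i)
    rw [X_pow_dvd_iff, Fin.sum_univ_five] at h
    norm_num at h
    have h0 := h 0 (by norm_num)
    have h1 := h 1 (by norm_num)
    have h3 := h 3 (by norm_num)
    have h5 := h 5 (by norm_num)
    have h7 := h 7 (by norm_num)
    simp only [P11, coeff_add, coeff_C_mul, coeff_X_pow, coeff_C_mul_X_pow] at h0 h1 h3 h5 h7
    norm_num at h0 h1 h3 h5 h7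
    intro (i : Fin 5)
    fin_cases i
    · show g 0 = 0
      linear_combination 9 * h0 + 1 * h1 + 9 * h3 + 0 * h5 + 9 * h7 - (18 * g 0 + 13 * g 1 + 8 * g 2 + 13 * g 3 + 9 * g 4) * char11'
    · show g 1 = 0
      linear_combination 6 * h0 + 8 * h1 + 0 * h3 + 8 * h5 + 1 * h7 - (16 * g 0 + 14 * g 1 + 11 * g 2 + 14 * g 3 + 6 * g 4) * char11'
    · show g 2 = 0
      linear_combination 7 * h0 + 7 * h1 + 1 * h3 + 5 * h5 + 5 * h7 - (17 * g 0 + 15 * g 1 + 10 * g 2 + 13 * g 3 + 7 * g 4) * char11'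
    · show g 3 = 0
      linear_combination 0 * h0 + 4 * h1 + 3 * h3 + 0 * h5 + 4 * h7 - (10 * g 0 + 6 * g 1 + 5 * g 2 + 5 * g 3 + 3 * g 4) * char11'
    · show g 4 = 0
      linear_combination 2 * h0 + 2 * h1 + 1 * h3 + 1 * h5 + 9 * h7 - (12 * g 0 + 9 * g 1 + 5 * g 2 + 4 * g 3 + 6 * g 4) * char11'

end Fermat.Agent.FLTSmall.KL

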