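import Mathlib
import Fermat.Agent.FLTSmall.KL.Certificate

/-! # Kummer's lemma for `p = 13` (generated certificate) -/

set_option autoImplicit false

namespace Fermat.Agent.FLTSmall.KL

open Polynomial

/-- logarithmic derivatives of the cyclotomic units modulo `X ^ 11`. -/
noncomputable def P13 : ℕ → (ZMod 13)[X]
  | 0 => C 1 * X ^ 0 + C 12 * X ^ 1 + C 1 * X ^ 2 + C 12 * X ^ 3 + C 1 * X ^ 4 + C 12 * X ^ 5 + C 1 * X ^ 6 + C 12 * X ^ 7 + C 1 * X ^ 8 + C 12 * X ^ 9 + C 1 * X ^ 10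
  | 1 => C 7 * X ^ 0 + C 3 * X ^ 1 + C 5 * X ^ 2 + C 4 * X ^ 3 + C 11 * X ^ 4 + C 1 * X ^ 5 + C 6 * X ^ 6 + C 10 * X ^ 7 + C 8 * X ^ 8 + C 9 * X ^ 9 + C 2 * X ^ 10
  | 2 => C 1 * X ^ 0 + C 4 * X ^ 1 + C 0 * X ^ 2 + C 3 * X ^ 3 + C 10 * X ^ 4 + C 2 * X ^ 5 + C 12 * X ^ 6 + C 9 * X ^ 7 + C 0 * X ^ 8 + C 10 * X ^ 9 + C 3 * X ^ 10
  | 3 => C 8 * X ^ 0 + C 3 * X ^ 1 + C 11 * X ^ 2 + C 11 * X ^ 3 + C 1 * X ^ 4 + C 1 * X ^ 5 + C 11 * X ^ 6 + C 5 * X ^ 7 + C 4 * X ^ 8 + C 9 * X ^ 9 + C 4 * X ^ 10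
  | 4 => C 2 * X ^ 0 + C 0 * X ^ 1 + C 12 * X ^ 2 + C 6 * X ^ 3 + C 0 * X ^ 4 + C 2 * X ^ 5 + C 11 * X ^ 6 + C 4 * X ^ 7 + C 7 * X ^ 8 + C 3 * X ^ 9 + C 5 * X ^ 10
  | 5 => C 9 * X ^ 0 + C 8 * X ^ 1 + C 3 * X ^ 2 + C 8 * X ^ 3 + C 9 * X ^ 4 + C 1 * X ^ 5 + C 6 * X ^ 6 + C 7 * X ^ 7 + C 6 * X ^ 8 + C 7 * X ^ 9 + C 6 * X ^ 10
  | _ => 0

lemma char13 : (13 : (ZMod 13)[X]) = 0 := by
  have := CharP.cast_eq_zero (ZMod 13)[X] 13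
  exact_mod_cast this

lemma char13' : (13 : ZMod 13) = 0 := by decide

theorem kummerLemma_thirteen (K : Type*) [Field K] [NumberField K]
    [IsCyclotomicExtension {13} ℚ K] : KummerLemma 13 K := by
  have : Fact (Nat.Prime 13) := ⟨by norm_num⟩
  refine kummerLemma_of_certificate' K (by norm_num) P13 ?_ ?_ ?_
  · refine ⟨1, ?_⟩
    simp only [P13, map_ofNat, map_one, map_zero]
    linear_combination (1 * X + 1 * X ^ 2 + 1 * X ^ 3 + 1 * X ^ 4 + 1 * X ^ 5 + 1 * X ^ 6 + 1 * X ^ 7 + 1 * X ^ 8 + 1 * X ^ 9 + 1 * X ^ 10) * char13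
  · intro a h2 ha
    norm_num at ha
    interval_cases a
    · refine ⟨2, ?_⟩
      simp only [P13, map_ofNat, map_one, map_zero, Finset.sum_range_succ, Finset.sum_range_zero,
        Nat.cast_ofNat, Nat.cast_one, Nat.cast_zero]
      norm_num
      linear_combination (1 + 1 * X + 1 * X ^ 2 + 1 * X ^ 3 + 2 * X ^ 4 + 1 * X ^ 5 + 1 * X ^ 6 + 2 * X ^ 7 + 2 * X ^ 8 + 2 * X ^ 9 + 1 * X ^ 10) * char13
    · refine ⟨6 + 3 * X, ?_⟩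
      simp only [P13, map_ofNat, map_one, map_zero, Finset.sum_range_succ, Finset.sum_range_zero,
        Nat.cast_ofNat, Nat.cast_one, Nat.cast_zero]
      norm_num
      linear_combination (1 * X + 1 * X ^ 2 + 1 * X ^ 3 + 3 * X ^ 4 + 3 * X ^ 5 + 4 * X ^ 6 + 5 * X ^ 7 + 3 * X ^ 8 + 3 * X ^ 9 + 3 * X ^ 10 + 1 * X ^ 11) * char13
    · refine ⟨12 + 12 * X + 4 * X ^ 2, ?_⟩
      simp only [P13, map_ofNat, map_one, map_zero, Finset.sum_range_succ, Finset.sum_range_zero,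
        Nat.cast_ofNat, Nat.cast_one, Nat.cast_zero]
      norm_num
      linear_combination (2 + 4 * X + 7 * X ^ 2 + 10 * X ^ 3 + 9 * X ^ 4 + 5 * X ^ 5 + 5 * X ^ 6 + 7 * X ^ 7 + 7 * X ^ 8 + 7 * X ^ 9 + 7 * X ^ 10 + 4 * X ^ 11 + 1 * X ^ 12) * char13
    · refine ⟨2 + 7 * X + 2 * X ^ 2 + 5 * X ^ 3, ?_⟩
      simp only [P13, map_ofNat, map_one, map_zero, Finset.sum_range_succ, Finset.sum_range_zero,
        Nat.cast_ofNat, Nat.cast_one, Nat.cast_zero]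
      norm_num
      linear_combination (5 * X ^ 2 + 12 * X ^ 3 + 14 * X ^ 4 + 10 * X ^ 5 + 9 * X ^ 6 + 12 * X ^ 7 + 15 * X ^ 8 + 14 * X ^ 9 + 12 * X ^ 10 + 9 * X ^ 11 + 5 * X ^ 12 + 2 * X ^ 13) * char13
    · refine ⟨4 + 8 * X + 8 * X ^ 2 + 4 * X ^ 3 + 6 * X ^ 4, ?_⟩
      simp only [P13, map_ofNat, map_one, map_zero, Finset.sum_range_succ, Finset.sum_range_zero,
        Nat.cast_ofNat, Nat.cast_one, Nat.cast_zero]
      norm_num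
      linear_combination (3 + 11 * X + 21 * X ^ 2 + 28 * X ^ 3 + 31 * X ^ 4 + 31 * X ^ 5 + 29 * X ^ 6 + 26 * X ^ 7 + 26 * X ^ 8 + 29 * X ^ 9 + 31 * X ^ 10 + 28 * X ^ 11 + 20 * X ^ 12 + 10 * X ^ 13 + 3 * X ^ 14) * char13
  · intro (g : Fin 6 → ZMod 13) (h : (X : (ZMod 13)[X]) ^ 11 ∣ ∑ i : Fin 6, C (g i) * P13 i)
    rw [X_pow_dvd_iff, Fin.sum_univ_six] at h
    norm_num at h
    have h0 := h 0 (by norm_num)
    have h1 := h 1 (by norm_num)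
    have h3 := h 3 (by norm_num)
    have h5 := h 5 (by norm_num)
    have h7 := h 7 (by norm_num)
    have h9 := h 9 (by norm_num)
    simp only [P13, coeff_add, coeff_C_mul, coeff_X_pow, coeff_C_mul_X_pow] at h0 h1 h3 h5 h7 h9
    norm_num at h0 h1 h3 h5 h7 h9
    intro (i : Fin 6)
    fin_cases i
    · show g 0 = 0
      linear_combination 1 * h0 + 3 * h1 + 3 * h3 + 9 * h5 + 7 * h7 + 4 * h9 - (24 * g 0 + 11 * g 1 + 11 * g 2 + 10 * g 3 + 6 * g 4 + 11 * g 5) * char13'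
    · show g 1 = 0
      linear_combination 10 * h0 + 2 * h1 + 10 * h3 + 7 * h5 + 11 * h7 + 6 * h9 - (34 * g 0 + 22 * g 1 + 17 * g 2 + 24 * g 3 + 12 * g 4 + 24 * g 5) * char13'
    · show g 2 = 0
      linear_combination 12 * h0 + 12 * h1 + 2 * h3 + 4 * h5 + 0 * h7 + 7 * h9 - (24 * g 0 + 15 * g 1 + 11 * g 2 + 17 * g 3 + 5 * g 4 + 21 * g 5) * char13'
    · show g 3 = 0
      linear_combination 7 * h0 + 11 * h1 + 9 * h3 + 9 * h5 + 6 * h7 + 11 * h9 - (43 * g 0 + 22 * g 1 + 20 * g 2 + 25 * g 3 + 11 * g 4 + 27 * g 5) * char13'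
    · show g 4 = 0
      linear_combination 4 * h0 + 2 * h1 + 2 * h3 + 7 * h5 + 1 * h7 + 5 * h9 - (16 * g 0 + 8 * g 1 + 7 * g 2 + 9 * g 3 + 4 * g 4 + 9 * g 5) * char13'
    · show g 5 = 0
      linear_combination 4 * h0 + 1 * h1 + 2 * h3 + 11 * h5 + 1 * h7 + 2 * h9 - (16 * g 0 + 6 * g 1 + 5 * g 2 + 7 * g 3 + 4 * g 4 + 7 * g 5) * char13'

end Fermat.Agent.FLTSmall.KL

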