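import Mathlib
import Fermat.Agent.FLTSmall.KL.Certificate

/-! # Kummer's lemma for `p = 5` (generated certificate) -/

set_option autoImplicit false

namespace Fermat.Agent.FLTSmall.KL

open Polynomial

/-- logarithmic derivatives of the cyclotomic units modulo `X ^ 3`. -/
noncomputable def P5 : ℕ → (ZMod 5)[X]
  | 0 => C 1 * X ^ 0 + C 4 * X ^ 1 + C 1 * X ^ 2
  | 1 => C 3 * X ^ 0 + C 1 * X ^ 1 + C 2 * X ^ 2
  | _ => 0

lemma char5 : (5 : (ZMod 5)[X]) = 0 := by
  have := CharP.cast_eq_zero (ZMod 5)[X] 5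
  exact_mod_cast this

lemma char5' : (5 : ZMod 5) = 0 := by decide

theorem kummerLemma_five (K : Type*) [Field K] [NumberField K]
    [IsCyclotomicExtension {5} ℚ K] : KummerLemma 5 K := by
  have : Fact (Nat.Prime 5) := ⟨by norm_num⟩
  refine kummerLemma_of_certificate' K (by norm_num) P5 ?_ ?_ ?_
  · refine ⟨1, ?_⟩
    simp only [P5, map_ofNat, map_one, map_zero]
    linear_combination (1 * X + 1 * X ^ 2) * char5
  · intro a h2 ha
    norm_num at ha
    interval_cases a
    · refine ⟨2, ?_⟩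
      simp only [P5, map_ofNat, map_one, map_zero, Finset.sum_range_succ, Finset.sum_range_zero,
        Nat.cast_ofNat, Nat.cast_one, Nat.cast_zero]
      norm_num
      linear_combination (1 + 1 * X + 1 * X ^ 2) * char5
  · intro (g : Fin 2 → ZMod 5) (h : (X : (ZMod 5)[X]) ^ 3 ∣ ∑ i : Fin 2, C (g i) * P5 i)
    rw [X_pow_dvd_iff, Fin.sum_univ_two] at h
    norm_num at h
    have h0 := h 0 (by norm_num)
    have h1 := h 1 (by norm_num)
    simp only [P5, coeff_add, coeff_C_mul, coeff_X_pow, coeff_C_mul_X_pow] at h0 h1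
    norm_num at h0 h1
    intro (i : Fin 2)
    fin_cases i
    · show g 0 = 0
      linear_combination 4 * h0 + 3 * h1 - (3 * g 0 + 3 * g 1) * char5'
    · show g 1 = 0
      linear_combination 4 * h0 + 4 * h1 - (4 * g 0 + 3 * g 1) * char5'

end Fermat.Agent.FLTSmall.KL

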